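import Mathlib.Algebra.Module.ZLattice.Covolume
import Mathlib.Analysis.Convex.Measure
import Mathlib.Analysis.InnerProductSpace.Basic
import Mathlib.MeasureTheory.Measure.Haar.InnerProductSpace
import Mathlib.MeasureTheory.Measure.Haar.OfBasis

/-!
# The cell of a lattice

The points no nearer to another lattice point than to `0` tile the space.
-/

set_option autoImplicit false

noncomputable section

open scoped RealInnerProductSpace Pointwise
open MeasureTheory Set Module

namespace FA.VoronoiCell

variable {V : Type*} [NormedAddCommGroup V] [InnerProductSpace ℝ V] (L : Submodule ℤ V)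

/-- The Dirichlet–Voronoi cell. -/
def cell : Set V := {x | ∀ v ∈ L, 2 * ⟪x, v⟫ ≤ ‖v‖ ^ 2}

variable {L}

theorem mem_cell_iff {x : V} : x ∈ cell L ↔ ∀ v ∈ L, ‖x‖ ≤ ‖x - v‖ := by
  refine forall₂_congr fun v _ => ?_
  rw [← pow_le_pow_iff_left₀ (norm_nonneg x) (norm_nonneg (x - v)) two_ne_zero, norm_sub_sq_real]
  constructor <;> intro h <;> linarith

theorem convex_cell : Convex ℝ (cell L) := by
  intro x hx y hy a b ha hb hab v hv
  rw [inner_add_left, real_inner_smul_left, real_inner_smul_left]
  have h1 := mul_le_mul_of_nonneg_left (hx v hv) ha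
  have h2 := mul_le_mul_of_nonneg_left (hy v hv) hb
  have h3 : a * ‖v‖ ^ 2 + b * ‖v‖ ^ 2 = ‖v‖ ^ 2 := by rw [← add_mul, hab, one_mul]
  linarith

theorem isClosed_cell : IsClosed (cell L) := by
  simp only [cell, ofPred_forall]
  exact isClosed_biInter fun v _ => isClosed_le (by fun_prop) continuous_const

theorem neg_mem_cell {x : V} (hx : x ∈ cell L) : -x ∈ cell L := fun v hv => by
  have h := hx (-v) (neg_mem hv)
  rwa [norm_neg, inner_neg_right, ← inner_neg_left] at h

theorem strict_of_mem_interior {x : V} (hx : x ∈ interior (cell L)) {v : V} (hv : v ∈ L)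
    (hv0 : v ≠ 0) : 2 * ⟪x, v⟫ < ‖v‖ ^ 2 := by
  obtain ⟨ε, hε, hball⟩ := Metric.mem_nhds_iff.1 (mem_interior_iff_mem_nhds.1 hx)
  have hpos : 0 < ‖v‖ := norm_pos_iff.2 hv0
  have h := hball (show x + (ε / (2 * ‖v‖)) • v ∈ Metric.ball x ε by
    rw [Metric.mem_ball, dist_eq_norm, add_sub_cancel_left, norm_smul, Real.norm_eq_abs,
      abs_of_nonneg (by positivity), div_mul_eq_mul_div, div_lt_iff₀ (by positivity)]
    nlinarith) v hv
  rw [inner_add_left, real_inner_smul_left, real_inner_self_eq_norm_sq] at h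
  have : 0 < ε / (2 * ‖v‖) * ‖v‖ ^ 2 := by positivity
  linarith

theorem disjoint_interior {v w : V} (hv : v ∈ L) (hw : w ∈ L) (hne : v ≠ w) :
    Disjoint (v +ᵥ interior (cell L)) (w +ᵥ interior (cell L)) := by
  rw [Set.disjoint_left]
  rintro x ⟨y, hy, rfl⟩ ⟨z, hz, he⟩
  simp only [vadd_eq_add] at he
  have h1 := strict_of_mem_interior hy (sub_mem hw hv) (sub_ne_zero.2 hne.symm)
  have h2 := strict_of_mem_interior hz (sub_mem hv hw) (sub_ne_zero.2 hne)
  have hzy : y = z + (w - v) := by
    rw [← add_right_inj v, ← he]; abel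
  rw [hzy, inner_add_left, real_inner_self_eq_norm_sq] at h1
  rw [← neg_sub w v, norm_neg, inner_neg_right] at h2
  linarith [sq_nonneg ‖w - v‖]

variable [FiniteDimensional ℝ V] [DiscreteTopology L]

theorem finite_lattice_norm_le (R : ℝ) : {v | v ∈ L ∧ ‖v‖ ≤ R}.Finite := by
  have : DiscreteTopology L.toAddSubgroup := inferInstanceAs (DiscreteTopology L)
  have hclosed : IsClosed (L : Set V) := AddSubgroup.isClosed_of_discrete (H := L.toAddSubgroup)
  have h := Metric.finite_isBounded_inter_isClosed (isDiscrete_iff_discreteTopology.2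
    (inferInstanceAs (DiscreteTopology L))) (Metric.isBounded_closedBall (x := (0 : V)) (r := R))
    hclosed
  refine h.subset fun v hv => ⟨?_, hv.1⟩
  rw [mem_closedBall_zero_iff]
  exact hv.2

/-- **Covering.** -/
theorem exists_sub_mem_cell (x : V) : ∃ v ∈ L, x - v ∈ cell L := by
  obtain ⟨v, ⟨hvL, -⟩, hmin⟩ := Set.exists_min_image {v | v ∈ L ∧ ‖v‖ ≤ 2 * ‖x‖}
    (fun v => ‖x - v‖) (finite_lattice_norm_le _)
    ⟨0, L.zero_mem, by rw [norm_zero]; positivity⟩
  refine ⟨v, hvL, mem_cell_iff.2 fun w hw => ?_⟩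
  rw [sub_sub]
  rcases le_or_gt ‖v + w‖ (2 * ‖x‖) with h | h
  · exact hmin _ ⟨add_mem hvL hw, h⟩
  · have h0 := hmin 0 ⟨L.zero_mem, by rw [norm_zero]; positivity⟩
    rw [sub_zero] at h0
    have h1 := norm_le_norm_sub_add (v + w) x
    rw [norm_sub_rev] at h1
    linarith

variable [IsZLattice ℝ L]

theorem isBounded_cell : Bornology.IsBounded (cell L) := by
  obtain ⟨b, hb⟩ : ∃ b, b = (Free.chooseBasis ℤ L).ofZLatticeBasis ℝ L := ⟨_, rfl⟩
  refine (Metric.isBounded_closedBall (x := (0 : V)) (r := ∑ i, ‖b i‖)).subset fun x hx => ?_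
  rw [mem_closedBall_zero_iff]
  have hv : (ZSpan.floor b x : V) ∈ L := by
    have hspan : Submodule.span ℤ (Set.range b) = L := by
      rw [hb]; exact Basis.ofZLatticeBasis_span ℝ L _
    exact hspan.le (ZSpan.floor b x).2
  exact (mem_cell_iff.1 hx _ hv).trans (ZSpan.norm_fract_le b x)

theorem isCompact_cell : IsCompact (cell L) :=
  Metric.isCompact_of_isClosed_isBounded isClosed_cell isBounded_cell

variable [MeasurableSpace V] [BorelSpace V]

omit [IsZLattice ℝ L] in
/-- **The cell is a fundamental domain.** -/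
theorem isAddFundamentalDomain_cell : IsAddFundamentalDomain L (cell L) volume := by
  have : MeasurableVAdd L V := (inferInstance : MeasurableVAdd L.toAddSubgroup V)
  have : VAddInvariantMeasure L V volume :=
    (inferInstance : VAddInvariantMeasure L.toAddSubgroup V volume)
  refine IsAddFundamentalDomain.mk'' isClosed_cell.measurableSet.nullMeasurableSet
    (Filter.Eventually.of_forall fun x => ?_) (fun g hg => ?_)
    fun g => (measurePreserving_vadd g volume).quasiMeasurePreserving
  · obtain ⟨v, hv, hx⟩ := exists_sub_mem_cell (L := L) x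
    exact ⟨⟨-v, neg_mem hv⟩, by
      show -v + x ∈ cell L
      rwa [neg_add_eq_sub]⟩
  · have hnull : volume (frontier (cell L)) = 0 := convex_cell.addHaar_frontier volume
    have hnull' : volume ((g : V) +ᵥ frontier (cell L)) = 0 := by
      rw [measure_vadd, hnull]
    refine measure_mono_null ?_ (measure_union_null hnull hnull')
    rintro x ⟨⟨y, hy, rfl⟩, hx⟩
    by_cases h : (g : V) + y ∈ interior (cell L)
    · refine Or.inr ⟨y, ?_, rfl⟩
      rw [isClosed_cell.frontier_eq]
      refine ⟨hy, fun hy' => ?_⟩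
      refine Set.disjoint_left.1 (disjoint_interior (v := (g : V)) (w := 0) g.2 L.zero_mem
        fun h0 => hg (Subtype.ext h0)) ⟨y, hy', rfl⟩ ?_
      exact ⟨_, h, zero_add _⟩
    · refine Or.inl ?_
      rw [isClosed_cell.frontier_eq]
      exact ⟨hx, h⟩

/-- **The volume of the cell is the covolume.** -/
theorem volume_cell : volume.real (cell L) = ZLattice.covolume L :=
  (ZLattice.covolume_eq_measure_fundamentalDomain L volume isAddFundamentalDomain_cell).symm

end FA.VoronoiCell

end
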