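import Fermat.Agent.VoronoiCell.Basic

/-!
# Facet vectors

Voronoi's criterion, the cut-out of the cell by its facets, and the bounds on their number.
-/

set_option autoImplicit false

noncomputable section

open scoped RealInnerProductSpace
open Set Module

namespace FA.VoronoiCell

variable {V : Type*} [NormedAddCommGroup V] [InnerProductSpace ℝ V] (L : Submodule ℤ V)

/-- `v` and `-v` are the only shortest vectors of `v + 2 L`. -/
def IsRelevant (v : V) : Prop :=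
  v ∈ L ∧ v ≠ 0 ∧ ∀ u, (∃ w ∈ L, u = v + (2 : ℤ) • w) → ‖u‖ ≤ ‖v‖ → u = v ∨ u = -v

/-- A relatively open piece of the bisector of `0` and `v` lies in the cell. -/
def IsFacetVector (v : V) : Prop :=
  v ∈ L ∧ v ≠ 0 ∧ ∃ x : V, ∃ ε > (0 : ℝ), 2 * ⟪x, v⟫ = ‖v‖ ^ 2 ∧
    ∀ y, 2 * ⟪y, v⟫ = ‖v‖ ^ 2 → dist y x < ε → y ∈ cell L

variable {L}

theorem two_zsmul_eq (x : V) : (2 : ℤ) • x = (2 : ℝ) • x := by
  rw [← Int.cast_smul_eq_zsmul ℝ]; norm_num

omit [InnerProductSpace ℝ V] in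
theorem IsRelevant.neg {v : V} (h : IsRelevant L v) : IsRelevant L (-v) := by
  refine ⟨neg_mem h.1, neg_ne_zero.2 h.2.1, fun u ⟨w, hw, hu⟩ hn => ?_⟩
  rw [neg_neg]
  have := h.2.2 (-u) ⟨-w, neg_mem hw, by rw [hu, neg_add, neg_neg, zsmul_neg]⟩
    (by rwa [norm_neg, ← norm_neg v])
  rcases this with h1 | h1
  · exact Or.inl (neg_eq_iff_eq_neg.1 h1)
  · exact Or.inr (neg_inj.1 h1)

/-- **The descent**: a vector which is not relevant splits into two shorter ones. -/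
theorem exists_split {v : V} (hv : v ∈ L) (hv0 : v ≠ 0) (h : ¬IsRelevant L v) :
    ∃ a b, a ∈ L ∧ b ∈ L ∧ a ≠ 0 ∧ b ≠ 0 ∧ a + b = v ∧ ‖a‖ ^ 2 + ‖b‖ ^ 2 ≤ ‖v‖ ^ 2 := by
  simp only [IsRelevant, hv, hv0, true_and, ne_eq, not_false_iff, not_forall, not_or] at h
  obtain ⟨u, ⟨w, hw, hu⟩, hle, huv, hun⟩ := h
  refine ⟨v + w, -w, add_mem hv hw, neg_mem hw, fun h0 => hun ?_, fun h0 => huv ?_,
    by abel, ?_⟩
  · rw [hu, eq_neg_of_add_eq_zero_right h0, zsmul_neg, two_zsmul]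
    abel
  · rw [hu, neg_eq_zero.1 h0, zsmul_zero, add_zero]
  · have hp := parallelogram_law_with_norm ℝ (v + w) w
    have e : v + w + w = u := by rw [hu, two_zsmul, add_assoc]
    rw [e, show v + w - w = v by abel] at hp
    rw [norm_neg]
    nlinarith [pow_le_pow_left₀ (norm_nonneg u) hle 2]

variable [FiniteDimensional ℝ V] [DiscreteTopology L]

theorem exists_least {P : V → Prop} {w₀ : V} (hw : w₀ ∈ L) (hP : P w₀) :
    ∃ w, w ∈ L ∧ P w ∧ ∀ u ∈ L, ‖u‖ < ‖w‖ → ¬P u := by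
  obtain ⟨w, ⟨⟨hwL, -⟩, hwP⟩, hmin⟩ := Set.exists_min_image
    ({v | v ∈ L ∧ ‖v‖ ≤ ‖w₀‖} ∩ {v | P v}) (fun v => ‖v‖)
    ((finite_lattice_norm_le _).subset inter_subset_left) ⟨w₀, ⟨hw, le_rfl⟩, hP⟩
  refine ⟨w, hwL, hwP, fun u hu hlt hPu => ?_⟩
  exact not_le.2 hlt (hmin u ⟨⟨hu, hlt.le.trans (hmin w₀ ⟨⟨hw, le_rfl⟩, hP⟩)⟩, hPu⟩)

omit [InnerProductSpace ℝ V] [FiniteDimensional ℝ V] in
theorem norm_lt_of_split {a b v : V} (hb : b ≠ 0) (h : ‖a‖ ^ 2 + ‖b‖ ^ 2 ≤ ‖v‖ ^ 2) :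
    ‖a‖ < ‖v‖ := by
  have : 0 < ‖b‖ ^ 2 := pow_pos (norm_pos_iff.2 hb) 2
  exact lt_of_pow_lt_pow_left₀ 2 (norm_nonneg v) (by linarith)

/-- **The cell is cut out by the relevant vectors.** -/
theorem cell_eq_relevant : cell L = {x | ∀ v, IsRelevant L v → 2 * ⟪x, v⟫ ≤ ‖v‖ ^ 2} := by
  refine Subset.antisymm (fun x hx v hv => hx v hv.1) fun x hx => ?_
  by_contra hcon
  simp only [cell, mem_ofPred_eq, not_forall, not_le] at hcon
  obtain ⟨w₀, hw₀, hbad⟩ := hcon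
  obtain ⟨w, hw, hwbad, hmin⟩ := exists_least (P := fun v => ‖v‖ ^ 2 < 2 * ⟪x, v⟫) hw₀ hbad
  have hw0 : w ≠ 0 := fun h => by rw [h] at hwbad; simp at hwbad
  obtain ⟨a, b, ha, hb, ha0, hb0, hab, hn⟩ :=
    exists_split hw hw0 fun h => not_le.2 hwbad (hx w h)
  have h1 := not_lt.1 (hmin a ha (norm_lt_of_split hb0 hn))
  have h2 := not_lt.1 (hmin b hb (norm_lt_of_split ha0 (by linarith)))
  rw [← hab, inner_add_right] at hwbad
  rw [← hab] at hn
  linarith

/-- The relevant vectors generate. -/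
theorem span_relevant : Submodule.span ℤ {v | IsRelevant L v} = L := by
  refine le_antisymm (Submodule.span_le.2 fun v hv => hv.1) fun w₀ hw₀ => ?_
  by_contra hcon
  obtain ⟨w, hw, hwbad, hmin⟩ :=
    exists_least (P := fun v => v ∉ Submodule.span ℤ {v | IsRelevant L v}) hw₀ hcon
  have hw0 : w ≠ 0 := fun h => hwbad (h ▸ zero_mem _)
  obtain ⟨a, b, ha, hb, ha0, hb0, hab, hn⟩ :=
    exists_split hw hw0 fun h => hwbad (Submodule.subset_span h)
  refine hwbad (hab ▸ add_mem ?_ ?_)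
  · exact not_not.1 (hmin a ha (norm_lt_of_split hb0 hn))
  · exact not_not.1 (hmin b hb (norm_lt_of_split ha0 (by linarith)))

/-- Near the midpoint of a relevant vector all other inequalities hold. -/
theorem exists_margin {v : V} (hv : IsRelevant L v) : ∃ ε > (0 : ℝ),
    ∀ y ∈ Metric.ball ((1 / 2 : ℝ) • v) ε, ∀ w ∈ L, w ≠ v → 2 * ⟪y, w⟫ ≤ ‖w‖ ^ 2 := by
  have hstrict : ∀ w ∈ L, w ≠ 0 → w ≠ v → 2 * ⟪(1 / 2 : ℝ) • v, w⟫ < ‖w‖ ^ 2 := by
    intro w hw hw0 hwv
    rw [real_inner_smul_left, ← mul_assoc, show (2 : ℝ) * (1 / 2) = 1 by norm_num, one_mul]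
    by_contra! hle
    have he : v + (2 : ℤ) • -w = v - (2 : ℝ) • w := by
      rw [zsmul_neg, two_zsmul_eq, sub_eq_add_neg]
    have hn : ‖v - (2 : ℝ) • w‖ ≤ ‖v‖ := by
      refine le_of_pow_le_pow_left₀ two_ne_zero (norm_nonneg v) ?_
      rw [norm_sub_sq_real, real_inner_smul_right, norm_smul, mul_pow, Real.norm_ofNat]
      linarith
    rcases hv.2.2 _ ⟨-w, neg_mem hw, rfl⟩ (he ▸ hn) with h | h <;> rw [he] at h
    · exact hw0 (by simpa using h)
    · refine hwv (smul_right_injective V (two_ne_zero (α := ℝ)) ?_)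
      show (2 : ℝ) • w = (2 : ℝ) • v
      rw [sub_eq_iff_eq_add] at h
      rw [two_smul ℝ v]
      nth_rewrite 1 [h]
      abel
  obtain ⟨S, hS⟩ : ∃ S : Set V, S = {w | (w ∈ L ∧ ‖w‖ ≤ ‖v‖ + 2) ∧ w ≠ 0 ∧ w ≠ v} := ⟨_, rfl⟩
  have hfin : S.Finite := by
    rw [hS]
    exact (finite_lattice_norm_le (L := L) (‖v‖ + 2)).subset fun w hw => hw.1
  have hopen : IsOpen (⋂ w ∈ S, {y : V | 2 * ⟪y, w⟫ < ‖w‖ ^ 2}) :=
    hfin.isOpen_biInter fun w _ => isOpen_lt (by fun_prop) continuous_const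
  obtain ⟨ε, hε, hball⟩ := Metric.isOpen_iff.1 hopen ((1 / 2 : ℝ) • v) (by
    simp only [mem_iInter, mem_ofPred_eq]
    intro w hw
    rw [hS] at hw
    exact hstrict w hw.1.1 hw.2.1 hw.2.2)
  refine ⟨min ε 1, lt_min hε one_pos, fun y hy w hw hwv => ?_⟩
  rcases eq_or_ne w 0 with rfl | hw0
  · simp
  rcases le_or_gt ‖w‖ (‖v‖ + 2) with h | h
  · have hmem := hball (Metric.ball_subset_ball (min_le_left _ _) hy)
    simp only [mem_iInter, mem_ofPred_eq] at hmem
    exact (hmem w (hS ▸ ⟨⟨hw, h⟩, hw0, hwv⟩)).le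
  · have h1 : ‖y‖ ≤ ‖v‖ / 2 + 1 := by
      have h2 := norm_le_norm_sub_add y ((1 / 2 : ℝ) • v)
      have h3 : ‖y - (1 / 2 : ℝ) • v‖ < 1 := by
        rw [← dist_eq_norm]
        exact (Metric.mem_ball.1 hy).trans_le (min_le_right _ _)
      rw [norm_smul, Real.norm_eq_abs, abs_of_pos (by norm_num : (0 : ℝ) < 1 / 2)] at h2
      linarith
    have h2 := real_inner_le_norm y w
    nlinarith [norm_nonneg w, norm_nonneg v]

/-- **Irredundance.** -/
theorem exists_only_violated {v : V} (hv : IsRelevant L v) :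
    ∃ x, ‖v‖ ^ 2 < 2 * ⟪x, v⟫ ∧ ∀ w ∈ L, w ≠ v → 2 * ⟪x, w⟫ ≤ ‖w‖ ^ 2 := by
  obtain ⟨ε, hε, h⟩ := exists_margin hv
  have hpos : 0 < ‖v‖ := norm_pos_iff.2 hv.2.1
  refine ⟨(1 / 2 + ε / (2 * ‖v‖) : ℝ) • v, ?_, h _ ?_⟩
  · rw [real_inner_smul_left, real_inner_self_eq_norm_sq]
    have : 0 < ε / (2 * ‖v‖) * ‖v‖ ^ 2 := by positivity
    linarith
  · rw [Metric.mem_ball, dist_eq_norm, add_smul, add_sub_cancel_left, norm_smul, Real.norm_eq_abs,
      abs_of_nonneg (by positivity), div_mul_eq_mul_div, div_lt_iff₀ (by positivity)]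
    nlinarith

/-- **Voronoi's criterion.** -/
theorem isFacetVector_iff {v : V} : IsFacetVector L v ↔ IsRelevant L v := by
  constructor
  · rintro ⟨hv, hv0, x, ε, hε, hx, hfac⟩
    by_contra hrel
    obtain ⟨a, b, ha, hb, ha0, hb0, hab, hn⟩ := exists_split hv hv0 hrel
    have hxC := hfac x hx (by rwa [dist_self])
    have h1 := hxC a ha
    have h2 := hxC b hb
    rw [← hab, inner_add_right] at hx
    rw [← hab] at hn
    have ea : 2 * ⟪x, a⟫ = ‖a‖ ^ 2 := by linarith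
    have hsq := norm_add_sq_real a b
    obtain ⟨t, ht⟩ : ∃ t, t = a - (⟪v, a⟫ / ‖v‖ ^ 2) • v := ⟨_, rfl⟩
    have hvpos : 0 < ‖v‖ ^ 2 := pow_pos (norm_pos_iff.2 hv0) 2
    have htv : ⟪t, v⟫ = 0 := by
      rw [ht, inner_sub_left, real_inner_smul_left, real_inner_self_eq_norm_sq,
        div_mul_cancel₀ _ hvpos.ne', real_inner_comm, sub_self]
    have hab0 : ⟪a, b⟫ = 0 := by linarith
    have hta : 0 < ⟪t, a⟫ := by
      rw [ht, inner_sub_left, real_inner_smul_left, real_inner_self_eq_norm_sq, sub_pos,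
        div_mul_eq_mul_div, div_lt_iff₀ hvpos]
      have hva : ⟪v, a⟫ = ‖a‖ ^ 2 := by
        rw [← hab, inner_add_left, real_inner_self_eq_norm_sq, real_inner_comm a b, hab0, add_zero]
      rw [hva]
      have ha2 : 0 < ‖a‖ ^ 2 := pow_pos (norm_pos_iff.2 ha0) 2
      have hb2 : 0 < ‖b‖ ^ 2 := pow_pos (norm_pos_iff.2 hb0) 2
      rw [← hab, hsq, hab0]
      nlinarith
    have ht0 : 0 < ‖t‖ := norm_pos_iff.2 fun h => by
      rw [h, inner_zero_left] at hta; exact lt_irrefl _ hta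
    have hyC := hfac (x + (ε / (2 * ‖t‖)) • t) (by
        rw [inner_add_left, real_inner_smul_left, htv, mul_zero, add_zero, ← hab, inner_add_right]
        exact hx) (by
        rw [dist_eq_norm, add_sub_cancel_left, norm_smul, Real.norm_eq_abs,
          abs_of_nonneg (by positivity), div_mul_eq_mul_div, div_lt_iff₀ (by positivity)]
        nlinarith) a ha
    rw [inner_add_left, real_inner_smul_left] at hyC
    have : 0 < ε / (2 * ‖t‖) * ⟪t, a⟫ := by positivity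
    linarith
  · intro hv
    obtain ⟨ε, hε, h⟩ := exists_margin hv
    refine ⟨hv.1, hv.2.1, (1 / 2 : ℝ) • v, ε, hε, ?_, fun y hy hd w hw => ?_⟩
    · rw [real_inner_smul_left, real_inner_self_eq_norm_sq]; ring
    · rcases eq_or_ne w v with rfl | hwv
      · exact hy.le
      · exact h y hd w hw hwv

variable [IsZLattice ℝ L] {n : ℕ}

/-- **Minkowski's bounds.** -/
theorem relevant_bounds (hn : finrank ℝ V = n) :
    {v | IsRelevant L v}.Finite ∧ 2 * n ≤ {v | IsRelevant L v}.ncard ∧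
      {v | IsRelevant L v}.ncard ≤ 2 * (2 ^ n - 1) ∧
      ((∀ u ∈ L, (∀ w ∈ L, u ≠ (2 : ℤ) • w) → ∃ v, IsRelevant L v ∧ ∃ w ∈ L, u = v + (2 : ℤ) • w) →
        {v | IsRelevant L v}.ncard = 2 * (2 ^ n - 1)) := by
  classical
  obtain ⟨b⟩ : Nonempty (Basis (Fin n) ℤ L) :=
    ⟨Module.finBasisOfFinrankEq ℤ _ ((ZLattice.rank ℝ L).trans hn)⟩
  obtain ⟨f, hf⟩ : ∃ f : L → Fin n → ZMod 2, f = fun v i => (b.repr v i : ZMod 2) := ⟨_, rfl⟩
  have hfiber : ∀ u v : L, f u = f v → ∃ w ∈ L, (u : V) = v + (2 : ℤ) • w := by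
    intro u v h
    have hdiv : ∀ i, (2 : ℤ) ∣ b.repr u i - b.repr v i := fun i => by
      have := congrFun h i
      rw [hf] at this
      refine (ZMod.intCast_zmod_eq_zero_iff_dvd _ 2).1 ?_
      rw [Int.cast_sub, sub_eq_zero]
      exact this
    choose k hk using hdiv
    refine ⟨(b.equivFun.symm k : L), (b.equivFun.symm k).2, ?_⟩
    have e : u = v + (2 : ℤ) • b.equivFun.symm k := b.equivFun.injective (funext fun i => by
      rw [map_add, map_zsmul, b.equivFun.apply_symm_apply, Pi.add_apply, Pi.smul_apply, smul_eq_mul,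
        Basis.equivFun_apply, Basis.equivFun_apply, ← hk i]
      ring)
    exact congrArg Subtype.val e
  have hfib' : ∀ (u v : L) (w : V) (hw : w ∈ L), (u : V) = v + (2 : ℤ) • w → f u = f v := by
    intro u v w hw h
    have e : u = v + (2 : ℤ) • ⟨w, hw⟩ := Subtype.ext h
    subst e
    funext i
    simp only [hf, map_add, map_zsmul, Finsupp.add_apply, Finsupp.smul_apply, smul_eq_mul,
      Int.cast_add, Int.cast_mul, Int.cast_ofNat]
    rw [show (2 : ZMod 2) = 0 from rfl, zero_mul, add_zero]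
  obtain ⟨R, hR⟩ : ∃ R : Set L, R = {v : L | IsRelevant L (v : V)} := ⟨_, rfl⟩
  have himg : {v : V | IsRelevant L v} = Subtype.val '' R :=
    Set.ext fun v => ⟨fun h => ⟨⟨v, h.1⟩, hR ▸ h, rfl⟩, fun ⟨u, hu, e⟩ => e ▸ (hR ▸ hu :)⟩
  have hpair : ∀ u ∈ R, ∀ v ∈ R, f u = f v → u = v ∨ u = -v := by
    intro u hu v hv h
    rw [hR] at hu hv
    rcases le_total ‖(u : V)‖ ‖(v : V)‖ with hle | hle
    · exact (hv.2.2 _ (hfiber u v h) hle).imp (fun e => Subtype.ext e) fun e => Subtype.ext e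
    · rcases hu.2.2 _ (hfiber v u h.symm) hle with e | e
      · exact Or.inl (Subtype.ext e.symm)
      · exact Or.inr (Subtype.ext (neg_eq_iff_eq_neg.2 e).symm)
  have hneg : ∀ v ∈ R, -v ∈ R ∧ f (-v) = f v ∧ -v ≠ v := by
    intro v hv
    rw [hR] at hv ⊢
    refine ⟨hv.neg, hfib' (-v) v (-(v : V)) (neg_mem v.2) ?_, fun h => hv.2.1 ?_⟩
    · rw [zsmul_neg, two_zsmul]
      show -(v : V) = _
      abel
    · have e : (2 : ℝ) • (v : V) = 0 := by
        rw [two_smul]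
        nth_rewrite 1 [← (congrArg Subtype.val h : -(v : V) = v)]
        exact neg_add_cancel _
      exact (smul_eq_zero.1 e).resolve_left two_ne_zero
  have hne : ∀ v ∈ R, f v ≠ 0 := by
    intro v hv h
    rw [hR] at hv
    obtain ⟨w, hw, e⟩ := hfiber 0 v (h ▸ funext fun i => by simp [hf])
    rcases hv.2.2 0 ⟨w, hw, e⟩ (by rw [norm_zero]; exact norm_nonneg _) with h0 | h0
    · exact hv.2.1 h0.symm
    · exact hv.2.1 (neg_eq_zero.1 h0.symm)
  have hfin : R.Finite := by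
    refine ((Set.toFinite (f '' R)).biUnion (t := fun c => R ∩ f ⁻¹' {c}) fun c _ => ?_).subset
      fun v hv => Set.mem_biUnion (Set.mem_image_of_mem f hv) ⟨hv, rfl⟩
    rcases (R ∩ f ⁻¹' {c}).eq_empty_or_nonempty with h | ⟨u, hu, huc⟩
    · rw [h]; exact Set.finite_empty
    · exact (Set.toFinite {u, -u}).subset fun v ⟨hv, hvc⟩ =>
        (hpair v hv u hu (hvc.trans (Eq.symm huc))).imp id fun e => Set.mem_singleton_iff.2 e
  obtain ⟨s, hs⟩ : ∃ s : Finset L, ∀ v, v ∈ s ↔ v ∈ R := ⟨hfin.toFinset, fun v => hfin.mem_toFinset⟩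
  have hcard : s.card = 2 * (s.image f).card := by
    rw [mul_comm, Finset.card_eq_sum_card_image f s, Finset.sum_const_nat]
    intro c hc
    obtain ⟨u, hu, rfl⟩ := Finset.mem_image.1 hc
    obtain ⟨h1, h2, h3⟩ := hneg u ((hs u).1 hu)
    rw [show (s.filter fun v => f v = f u) = {u, -u} from Finset.ext fun v => by
      rw [Finset.mem_filter, Finset.mem_insert, Finset.mem_singleton, hs]
      refine ⟨fun ⟨hv, he⟩ => hpair v hv u ((hs u).1 hu) he, ?_⟩
      rintro (rfl | rfl)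
      exacts [⟨(hs _).1 hu, rfl⟩, ⟨h1, h2⟩], Finset.card_pair h3.symm]
  have hncard : {v | IsRelevant L v}.ncard = s.card := by
    rw [himg, Set.ncard_image_of_injective _ Subtype.val_injective, ← Set.ncard_coe_finset]
    exact congrArg _ (Set.ext fun v => (hs v).symm)
  have hsub : s.image f ⊆ (Finset.univ : Finset (Fin n → ZMod 2)).erase 0 := fun c hc => by
    obtain ⟨u, hu, rfl⟩ := Finset.mem_image.1 hc
    exact Finset.mem_erase.2 ⟨hne u ((hs u).1 hu), Finset.mem_univ _⟩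
  have htot : ((Finset.univ : Finset (Fin n → ZMod 2)).erase 0).card = 2 ^ n - 1 := by
    rw [Finset.card_erase_of_mem (Finset.mem_univ _), Finset.card_univ, Fintype.card_fun,
      ZMod.card, Fintype.card_fin]
  refine ⟨himg ▸ hfin.image _, ?_, ?_, fun hall => ?_⟩
  · rw [hncard, hcard]
    refine Nat.mul_le_mul_left 2 ?_
    have hrep : ∀ c : s.image f, ∃ u, u ∈ s ∧ f u = c.1 := fun c => Finset.mem_image.1 c.2
    choose rep hrs hrf using hrep
    have hspan : (⊤ : Submodule ℝ V) ≤ Submodule.span ℝ (Set.range fun c => (rep c : V)) := by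
      rw [← IsZLattice.span_top (K := ℝ) (L := L),
        show (L : Set V) = (Submodule.span ℤ {v | IsRelevant L v} : Set V) from
          (congrArg (fun M : Submodule ℤ V => (M : Set V)) span_relevant).symm,
        Submodule.span_span_of_tower, Submodule.span_le, himg]
      rintro _ ⟨u, hu, rfl⟩
      obtain ⟨c, hc⟩ : ∃ c : s.image f, c.1 = f u :=
        ⟨⟨_, Finset.mem_image_of_mem f ((hs u).2 hu)⟩, rfl⟩
      rcases hpair u hu (rep c) ((hs _).1 (hrs c)) (hc.symm.trans (hrf c).symm) with e | e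
      · exact Submodule.subset_span ⟨c, by rw [e]⟩
      · rw [e]
        exact neg_mem (Submodule.subset_span ⟨c, rfl⟩)
    have h := Submodule.finrank_mono hspan
    rw [finrank_top, hn] at h
    exact h.trans ((finrank_range_le_card _).trans_eq (Fintype.card_coe _))
  · rw [hncard, hcard]
    exact Nat.mul_le_mul_left 2 ((Finset.card_le_card hsub).trans_eq htot)
  · rw [hncard, hcard, ← htot]
    refine congrArg (2 * ·) (congrArg Finset.card (Finset.Subset.antisymm hsub fun c hc => ?_))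
    obtain ⟨u, hu⟩ : ∃ u : L, u = b.equivFun.symm fun i => ((c i).val : ℤ) := ⟨_, rfl⟩
    have hfu : f u = c := funext fun i => by
      rw [hf]
      show (b.repr u i : ZMod 2) = c i
      rw [← Basis.equivFun_apply, hu, b.equivFun.apply_symm_apply, Int.cast_natCast,
        ZMod.natCast_zmod_val]
    obtain ⟨v, hv, w, hw, e⟩ := hall u u.2 fun w hw h => (Finset.mem_erase.1 hc).1 (by
      rw [← hfu, hfib' u 0 w hw (by rw [h]; simp)]
      funext i
      simp [hf])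
    exact Finset.mem_image.2 ⟨⟨v, hv.1⟩, (hs _).2 (hR ▸ hv),
      (hfib' u ⟨v, hv.1⟩ w hw e).symm.trans hfu⟩

end FA.VoronoiCell

end
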