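import Fermat.Agent.VoronoiCell.Facets
import Mathlib.Algebra.Order.Chebyshev
import Mathlib.Analysis.InnerProductSpace.PiL2

/-!
# Voronoi's principal form

In the lattice with the form `(n + 1) ∑ z i ^ 2 - (∑ z i) ^ 2`, the sum of `(a i - a j) ^ 2` over
the pairs of `a = (0, z)`, every class modulo two has a shortest pair: a zero-one vector and its
negative.
-/

set_option autoImplicit false

noncomputable section

open scoped RealInnerProductSpace
open Set Module

namespace FA.VoronoiCell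

variable {n : ℕ}

theorem sum_sq_diff (a : Fin n → ℝ) :
    ∑ i, ∑ j, (a i - a j) ^ 2 = 2 * ((n : ℝ) * ∑ i, a i ^ 2 - (∑ i, a i) ^ 2) := by
  simp only [sub_sq, Finset.sum_add_distrib, Finset.sum_sub_distrib, ← Finset.mul_sum,
    ← Finset.sum_mul, Finset.sum_const, Finset.card_univ, Fintype.card_fin, nsmul_eq_mul]
  ring

theorem eq_or_eq_neg_of_le {z e : Fin n → ℤ} (he : ∀ i, e i = 0 ∨ e i = 1) (hne : e ≠ 0)
    (hpar : ∀ i, (2 : ℤ) ∣ z i - e i)
    (hle : ∑ i : Fin (n + 1), ∑ j : Fin (n + 1),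
        ((Fin.cons 0 z : Fin (n + 1) → ℤ) i - (Fin.cons 0 z : Fin (n + 1) → ℤ) j) ^ 2 ≤
      ∑ i : Fin (n + 1), ∑ j : Fin (n + 1),
        ((Fin.cons 0 e : Fin (n + 1) → ℤ) i - (Fin.cons 0 e : Fin (n + 1) → ℤ) j) ^ 2) :
    z = e ∨ z = -e := by
  obtain ⟨a, ha⟩ : ∃ a : Fin (n + 1) → ℤ, a = Fin.cons 0 z := ⟨_, rfl⟩
  obtain ⟨b, hb⟩ : ∃ b : Fin (n + 1) → ℤ, b = Fin.cons 0 e := ⟨_, rfl⟩
  rw [← ha, ← hb] at hle
  have hb01 : ∀ i, b i = 0 ∨ b i = 1 := fun i => by
    rw [hb]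
    refine Fin.cases ?_ (fun j => ?_) i <;> simp [he]
  have hab : ∀ i, (2 : ℤ) ∣ a i - b i := fun i => by
    rw [ha, hb]
    refine Fin.cases ?_ (fun j => ?_) i <;> simp [hpar]
  have hterm : ∀ i j, (b i - b j) ^ 2 ≤ (a i - a j) ^ 2 := fun i j => by
    rcases eq_or_ne (b i) (b j) with h | h
    · rw [h, sub_self, zero_pow two_ne_zero]
      exact sq_nonneg _
    · have hone : (b i - b j) ^ 2 = 1 := by
        rcases hb01 i with h1 | h1 <;> rcases hb01 j with h2 | h2 <;> rw [h1, h2] at h ⊢ <;>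
          simp at h ⊢
      have hne' : a i - a j ≠ 0 := fun h0 => by
        have := hab i
        have := hab j
        rcases hb01 i with h1 | h1 <;> rcases hb01 j with h2 | h2 <;> omega
      rw [hone]
      nlinarith [Int.one_le_abs hne', sq_abs (a i - a j)]
  have houter := (Finset.sum_eq_sum_iff_of_le fun i _ => Finset.sum_le_sum fun j _ => hterm i j).1
    (le_antisymm (Finset.sum_le_sum fun i _ => Finset.sum_le_sum fun j _ => hterm i j) hle)
  have heq : ∀ i j, (b i - b j) ^ 2 = (a i - a j) ^ 2 := fun i j =>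
    (Finset.sum_eq_sum_iff_of_le fun j _ => hterm i j).1 (houter i (Finset.mem_univ i)) j
      (Finset.mem_univ j)
  have hsq : ∀ i, z i ^ 2 = e i ^ 2 := fun i => by
    have := heq i.succ 0
    simpa [ha, hb] using this.symm
  have hsame : ∀ i j, e i = 1 → e j = 1 → z i = z j := fun i j h1 h2 => by
    have h : (0 : ℤ) = (z i - z j) ^ 2 := by simpa [ha, hb, h1, h2] using heq i.succ j.succ
    exact sub_eq_zero.1 (sq_eq_zero_iff.1 h.symm)
  have hzero : ∀ i, e i = 0 → z i = 0 := fun i h => by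
    have h' := hsq i
    rw [h, zero_pow two_ne_zero] at h'
    exact sq_eq_zero_iff.1 h'
  obtain ⟨i₀, hi₀⟩ : ∃ i, e i = 1 := by
    by_contra! h
    exact hne (funext fun i => (he i).resolve_right (h i))
  have h0 : z i₀ = 1 ∨ z i₀ = -1 := by
    have h' := hsq i₀
    rw [hi₀] at h'
    exact sq_eq_one_iff.1 (h'.trans (one_pow 2))
  rcases h0 with h0 | h0
  · refine Or.inl (funext fun i => ?_)
    rcases he i with h | h
    · rw [h, hzero i h]
    · rw [h, hsame i i₀ h hi₀, h0]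
  · refine Or.inr (funext fun i => ?_)
    rw [Pi.neg_apply]
    rcases he i with h | h
    · rw [h, hzero i h, neg_zero]
    · rw [h, hsame i i₀ h hi₀, h0]

/-- **Sharpness.** -/
theorem exists_sharp (n : ℕ) :
    ∃ L : Submodule ℤ (EuclideanSpace ℝ (Fin n)), ∃ (_ : DiscreteTopology L),
      IsZLattice ℝ L ∧ {v | IsRelevant L v}.ncard = 2 * (2 ^ n - 1) := by
  classical
  obtain ⟨s, hs⟩ : ∃ s : ℝ, s = Real.sqrt (n + 1) := ⟨_, rfl⟩
  have hs0 : 0 < s := hs ▸ Real.sqrt_pos.2 (by positivity)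
  have hs2 : s ^ 2 = n + 1 := hs ▸ Real.sq_sqrt (by positivity)
  obtain ⟨T, hT⟩ : ∃ T : (Fin n → ℝ) →ₗ[ℝ] EuclideanSpace ℝ (Fin n),
      ∀ x i, T x i = s * x i - (s + 1)⁻¹ * ∑ j, x j :=
    ⟨{ toFun := fun x => WithLp.toLp 2 fun i => s * x i - (s + 1)⁻¹ * ∑ j, x j
       map_add' := fun x y => PiLp.ext fun i => by
        simp only [PiLp.add_apply, Pi.add_apply, Finset.sum_add_distrib]; ring
       map_smul' := fun r x => PiLp.ext fun i => by
        simp only [PiLp.smul_apply, Pi.smul_apply, smul_eq_mul, RingHom.id_apply, ← Finset.mul_sum]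
        ring }, fun _ _ => rfl⟩
  have hnorm : ∀ x, ‖T x‖ ^ 2 = ((n : ℝ) + 1) * ∑ i, x i ^ 2 - (∑ i, x i) ^ 2 := fun x => by
    rw [EuclideanSpace.real_norm_sq_eq]
    simp only [hT, sub_sq, Finset.sum_add_distrib, Finset.sum_sub_distrib, mul_pow,
      ← Finset.mul_sum, ← Finset.sum_mul, Finset.sum_const, Finset.card_univ, Fintype.card_fin,
      nsmul_eq_mul, mul_assoc]
    have : s + 1 ≠ 0 := by linarith
    rw [← hs2, show (n : ℝ) = s ^ 2 - 1 by linarith]
    field_simp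
    ring
  have hinj : Function.Injective T := by
    refine (injective_iff_map_eq_zero _).2 fun x hx => funext fun i => ?_
    have h := hnorm x
    rw [hx, norm_zero, zero_pow two_ne_zero] at h
    have hcs : (∑ i, x i) ^ 2 ≤ n * ∑ i, x i ^ 2 := by
      simpa using sq_sum_le_card_mul_sum_sq (s := (Finset.univ : Finset (Fin n))) (f := x)
    have h2 := Finset.single_le_sum (f := fun i => x i ^ 2) (fun i _ => sq_nonneg _)
      (Finset.mem_univ i)
    exact sq_eq_zero_iff.1 (le_antisymm (by nlinarith) (sq_nonneg (x i)))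
  obtain ⟨b, hb⟩ : ∃ b : Basis (Fin n) ℝ (EuclideanSpace ℝ (Fin n)), ∀ x, b.equivFun.symm x = T x :=
    ⟨(Pi.basisFun ℝ (Fin n)).map (LinearEquiv.ofBijective T
      ⟨hinj, (LinearMap.injective_iff_surjective_of_finrank_eq_finrank
        (by rw [finrank_euclideanSpace, finrank_pi])).1 hinj⟩), fun x => by
      rw [Basis.equivFun_symm_apply]
      conv_rhs => rw [← (Pi.basisFun ℝ (Fin n)).sum_repr x, map_sum]
      exact Finset.sum_congr rfl fun i _ => by rw [map_smul]; rfl⟩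
  obtain ⟨L, hL⟩ : ∃ L, L = Submodule.span ℤ (Set.range b) := ⟨_, rfl⟩
  have hmem : ∀ v, v ∈ L ↔ ∃ z : Fin n → ℤ, v = T fun i => (z i : ℝ) := fun v => by
    rw [hL, Basis.mem_span_iff_repr_mem]
    constructor
    · intro h
      choose z hz using h
      refine ⟨z, ?_⟩
      rw [← hb, LinearEquiv.eq_symm_apply]
      funext i
      exact (hz i).symm
    · rintro ⟨z, rfl⟩ i
      refine ⟨z i, ?_⟩
      rw [← hb, ← Basis.equivFun_apply, LinearEquiv.apply_symm_apply]
      rfl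
  have : DiscreteTopology L := by rw [hL]; infer_instance
  have : IsZLattice ℝ L := by
    refine ⟨?_⟩
    rw [hL, Submodule.span_span_of_tower, b.span_eq]
  refine ⟨L, inferInstance, inferInstance, (relevant_bounds finrank_euclideanSpace_fin).2.2.2 ?_⟩
  intro u hu hodd
  obtain ⟨z, rfl⟩ := (hmem u).1 hu
  obtain ⟨e, he⟩ : ∃ e : Fin n → ℤ, e = fun i => z i % 2 := ⟨_, rfl⟩
  have he01 : ∀ i, e i = 0 ∨ e i = 1 := fun i => by rw [he]; exact Int.emod_two_eq_zero_or_one _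
  have hdiff : ∀ i, z i = e i + 2 * (z i / 2) := fun i => by
    rw [he]; exact (Int.emod_add_mul_ediv (z i) 2).symm
  have hsplit : ∀ (p q r : Fin n → ℤ), (∀ i, p i = q i + 2 * r i) →
      T (fun i => (p i : ℝ)) = T (fun i => (q i : ℝ)) + (2 : ℤ) • T fun i => (r i : ℝ) := by
    intro p q r h
    rw [← map_zsmul, ← map_add]
    congr 1
    funext i
    simp [h i]
  obtain ⟨w, hw⟩ : ∃ w : Fin n → ℤ, w = fun i => z i / 2 := ⟨_, rfl⟩
  have hne : e ≠ 0 := fun h0 => hodd _ ((hmem _).2 ⟨w, rfl⟩) (by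
    rw [hsplit z e w (hw ▸ hdiff), h0]
    rw [show (fun i => (((0 : Fin n → ℤ) i : ℤ) : ℝ)) = 0 from funext fun i => by simp, map_zero,
      zero_add])
  refine ⟨T fun i => (e i : ℝ), ⟨(hmem _).2 ⟨e, rfl⟩, ?_, ?_⟩, _, (hmem _).2 ⟨w, rfl⟩,
    hsplit z e w (hw ▸ hdiff)⟩
  · intro h0
    refine hne (funext fun i => ?_)
    simpa using congrFun (hinj (h0.trans (map_zero T).symm)) i
  · rintro u ⟨y, hy, rfl⟩ hle
    obtain ⟨r, rfl⟩ := (hmem y).1 hy
    obtain ⟨p, hp⟩ : ∃ p : Fin n → ℤ, p = fun i => e i + 2 * r i := ⟨_, rfl⟩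
    rw [← hsplit p e r fun i => by rw [hp]] at hle ⊢
    have hQ : ∀ q : Fin n → ℤ, ((∑ i : Fin (n + 1), ∑ j : Fin (n + 1),
        ((Fin.cons 0 q : Fin (n + 1) → ℤ) i - (Fin.cons 0 q : Fin (n + 1) → ℤ) j) ^ 2 : ℤ) : ℝ) =
        2 * ‖T fun i => (q i : ℝ)‖ ^ 2 := fun q => by
      push_cast
      rw [sum_sq_diff, hnorm, Fin.sum_univ_succ, Fin.sum_univ_succ]
      simp
    have hle' := pow_le_pow_left₀ (norm_nonneg _) hle 2
    have hint := eq_or_eq_neg_of_le (z := p) he01 hne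
      (fun i => ⟨r i, by rw [hp]; ring⟩) (Int.cast_le.1 (by
        rw [hQ, hQ]
        exact mul_le_mul_of_nonneg_left hle' two_pos.le))
    refine hint.imp (fun h => by rw [h]) fun h => ?_
    rw [h, ← map_neg]
    congr 1
    funext i
    simp

end FA.VoronoiCell

end
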